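import Fermat.Agent.Modular.JLattice
import Mathlib.Analysis.Analytic.Order
import Mathlib.Analysis.Analytic.IsolatedZeros
import Mathlib.Analysis.Analytic.Uniqueness

/-! The second order equation satisfied by `℘`, and uniqueness of its analytic solutions. -/

set_option autoImplicit false

noncomputable section

open Filter Topology FermatLib.Modular

namespace FermatLib.Mazur.Uniformization

/-- Two analytic solutions of `f'' = 6 f² + a` with the same initial data agree. -/
theorem eventuallyEq_of_second_order {f g : ℂ → ℂ} {a x : ℂ} (hf : AnalyticAt ℂ f x)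
    (hg : AnalyticAt ℂ g x) (hf' : ∀ᶠ z in 𝓝 x, deriv (deriv f) z = 6 * f z ^ 2 + a)
    (hg' : ∀ᶠ z in 𝓝 x, deriv (deriv g) z = 6 * g z ^ 2 + a)
    (h0 : f x = g x) (h1 : deriv f x = deriv g x) : f =ᶠ[𝓝 x] g := by
  set h : ℂ → ℂ := fun z => f z - g z with hh
  have ha : AnalyticAt ℂ h x := hf.sub hg
  by_cases htop : analyticOrderAt h x = ⊤
  · filter_upwards [analyticOrderAt_eq_top.mp htop] with z hz using sub_eq_zero.mp hz
  exfalso
  obtain ⟨n, hn⟩ := ENat.ne_top_iff_exists.mp htop
  have hd : deriv h =ᶠ[𝓝 x] fun z => deriv f z - deriv g z := by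
    filter_upwards [hf.eventually_analyticAt, hg.eventually_analyticAt] with z hfz hgz
    exact deriv_fun_sub hfz.differentiableAt hgz.differentiableAt
  have hdd : deriv (deriv h) =ᶠ[𝓝 x] fun z => (fun z => 6 * (f z + g z)) z * h z := by
    filter_upwards [hd.eventuallyEq_nhds, hf', hg', hf.deriv.eventually_analyticAt,
      hg.deriv.eventually_analyticAt] with z hz hfz hgz haf hag
    rw [hz.deriv_eq, deriv_fun_sub haf.differentiableAt hag.differentiableAt, hfz, hgz, hh]
    ring
  have e1 := ha.analyticOrderAt_deriv_add_one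
  have hx0 : h x = 0 := by simp [hh, h0]
  simp only [hx0, sub_zero] at e1
  rw [← hn] at e1
  have e2 := ha.deriv.analyticOrderAt_deriv_add_one
  have hx1 : deriv h x = 0 := by rw [hd.eq_of_nhds]; simp [h1]
  simp only [hx1, sub_zero] at e2
  have e3 : analyticOrderAt h x ≤ analyticOrderAt (deriv (deriv h)) x := by
    rw [analyticOrderAt_congr hdd]
    change _ ≤ analyticOrderAt ((fun z => 6 * (f z + g z)) * h) x
    rw [analyticOrderAt_mul (by fun_prop) ha]
    exact le_add_self
  rw [← hn] at e3
  have ht : analyticOrderAt (deriv (deriv h)) x ≠ ⊤ := by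
    intro ht; rw [ht, top_add] at e2; rw [← e2, top_add] at e1; exact ENat.top_ne_natCast n e1
  obtain ⟨k, hk⟩ := ENat.ne_top_iff_exists.mp ht
  rw [← hk] at e2 e3
  rw [← e2] at e1
  norm_cast at e1 e3
  omega

variable (L : PeriodPair)

theorem isPreconnected_compl_of_countable {s : Set ℂ} (hs : s.Countable) :
    IsPreconnected sᶜ :=
  (hs.isPathConnected_compl_of_one_lt_rank (by simp)).isConnected.isPreconnected

theorem countable_lattice : (L.lattice : Set ℂ).Countable := by
  rw [← Set.countable_coe_iff]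
  exact L.latticeEquivProd.toEquiv.injective.countable

theorem countable_preimage_lattice (s : ℂ → ℂ) (hs : Function.Injective s) :
    (s ⁻¹' (L.lattice : Set ℂ)).Countable :=
  (countable_lattice L).preimage hs

theorem derivWeierstrassP_not_eventually_zero :
    ∀ᶠ z in 𝓝[≠] (0 : ℂ), L.derivWeierstrassP z ≠ 0 := by
  have h := (analyticAt_jlatAux' L).continuousAt.eventually_ne
    (by rw [jlatAux'_zero]; norm_num : jlatAux' L 0 ≠ 0)
  filter_upwards [self_mem_nhdsWithin, eventually_notMem_lattice L,
    mem_nhdsWithin_of_mem_nhds h] with z hz hzL hne hd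
  rw [jlatAux'_eq L hz hzL, hd, mul_zero] at hne
  exact hne rfl

theorem hasDerivAt_weierstrassP {z : ℂ} (hz : z ∉ L.lattice) :
    HasDerivAt L.weierstrassP (L.derivWeierstrassP z) z := by
  have := (L.analyticOnNhd_weierstrassP z hz).differentiableAt.hasDerivAt
  rwa [L.deriv_weierstrassP] at this

/-- `℘'' = 6 ℘² - g₂ / 2`. -/
theorem deriv_derivWeierstrassP {z : ℂ} (hz : z ∉ L.lattice) :
    deriv L.derivWeierstrassP z = 6 * L.weierstrassP z ^ 2 - L.g₂ / 2 := by
  set U : Set ℂ := (L.lattice : Set ℂ)ᶜ
  set D : ℂ → ℂ := fun w => deriv L.derivWeierstrassP w - (6 * L.weierstrassP w ^ 2 - L.g₂ / 2)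
  have hD : AnalyticOnNhd ℂ D U := fun w hw => by
    have := (L.analyticOnNhd_derivWeierstrassP w hw).deriv
    have := L.analyticOnNhd_weierstrassP w hw
    fun_prop
  have hmul : ∀ w ∈ U, (D * L.derivWeierstrassP) w = 0 := by
    intro w hw
    have hd' := (L.analyticOnNhd_derivWeierstrassP w hw).differentiableAt.hasDerivAt
    have hp := hasDerivAt_weierstrassP L hw
    have e : (fun u => L.derivWeierstrassP u ^ 2) =ᶠ[𝓝 w]
        fun u => 4 * L.weierstrassP u ^ 3 - L.g₂ * L.weierstrassP u - L.g₃ := by
      filter_upwards [L.isClosed_lattice.isOpen_compl.mem_nhds hw] with u hu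
      exact L.derivWeierstrassP_sq u hu
    have h1 := ((((hp.fun_pow 3).const_mul (4 : ℂ)).fun_sub (hp.const_mul L.g₂)).sub_const
      L.g₃).congr_of_eventuallyEq e
    have h2 := (hd'.fun_pow 2).unique h1
    simp only [Pi.mul_apply, D]
    push_cast at h2
    linear_combination (1 / 2 : ℂ) * h2
  rcases AnalyticOnNhd.eq_zero_or_eq_zero_of_mul_eq_zero hD L.analyticOnNhd_derivWeierstrassP hmul
      (isPreconnected_compl_of_countable (countable_lattice L)) with h | h
  · exact sub_eq_zero.mp (h z hz)
  · obtain ⟨w, hw, hw0⟩ :=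
      ((eventually_notMem_lattice L).and (derivWeierstrassP_not_eventually_zero L)).exists
    exact absurd (h w hw) hw0

theorem hasDerivAt_derivWeierstrassP {z : ℂ} (hz : z ∉ L.lattice) :
    HasDerivAt L.derivWeierstrassP (6 * L.weierstrassP z ^ 2 - L.g₂ / 2) z := by
  rw [← deriv_derivWeierstrassP L hz]
  exact (L.analyticOnNhd_derivWeierstrassP z hz).differentiableAt.hasDerivAt

/-- `u ↦ ℘ (u + w)` solves the second order equation near any `x` with `x + w ∉ L`. -/
theorem second_order_shift {w x : ℂ} (hw : x + w ∉ L.lattice) :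
    AnalyticAt ℂ (fun u => L.weierstrassP (u + w)) x ∧
      deriv (fun u => L.weierstrassP (u + w)) x = L.derivWeierstrassP (x + w) ∧
      ∀ᶠ u in 𝓝 x, deriv (deriv fun u => L.weierstrassP (u + w)) u
        = 6 * L.weierstrassP (u + w) ^ 2 + (- L.g₂ / 2) := by
  have hA : AnalyticAt ℂ (fun u => L.weierstrassP (u + w)) x :=
    AnalyticAt.fun_comp (g := L.weierstrassP) (f := fun u => u + w)
      (L.analyticOnNhd_weierstrassP (x + w) hw) (by fun_prop)
  have hev : ∀ᶠ u in 𝓝 x, u + w ∉ L.lattice :=
    ((continuous_add_const w).tendsto x).eventually (L.isClosed_lattice.isOpen_compl.mem_nhds hw)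
  have hd : deriv (fun u => L.weierstrassP (u + w)) =
      fun u => L.derivWeierstrassP (u + w) := by
    funext u
    rw [deriv_comp_add_const, L.deriv_weierstrassP]
  refine ⟨hA, congrFun hd x, ?_⟩
  filter_upwards [hev] with u hu
  rw [hd, deriv_comp_add_const, deriv_derivWeierstrassP L hu]
  ring

/-- The values of `℘` and `℘'` determine the point modulo `L`. -/
theorem sub_mem_lattice_of_eq {z w : ℂ} (hz : z ∉ L.lattice) (hw : w ∉ L.lattice)
    (h0 : L.weierstrassP z = L.weierstrassP w)
    (h1 : L.derivWeierstrassP z = L.derivWeierstrassP w) : z - w ∈ L.lattice := by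
  obtain ⟨a1, d1, o1⟩ := second_order_shift L (w := z) (x := 0) (by simpa using hz)
  obtain ⟨a2, d2, o2⟩ := second_order_shift L (w := w) (x := 0) (by simpa using hw)
  have he := eventuallyEq_of_second_order a1 a2 o1 o2 (by simpa using h0)
    (by rw [d1, d2]; simpa using h1)
  by_contra hzw
  set U : Set ℂ := ((fun u => u + z) ⁻¹' (L.lattice : Set ℂ) ∪
    (fun u => u + w) ⁻¹' (L.lattice : Set ℂ))ᶜ
  have hU : IsPreconnected U := isPreconnected_compl_of_countable
    ((countable_preimage_lattice L _ (add_left_injective z)).union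
      (countable_preimage_lattice L _ (add_left_injective w)))
  have h0U : (0 : ℂ) ∈ U := by simp [U, hz, hw]
  have hf : AnalyticOnNhd ℂ (fun u => L.weierstrassP (u + z)) U := fun u hu =>
    (second_order_shift L (fun h => hu (Or.inl h))).1
  have hg : AnalyticOnNhd ℂ (fun u => L.weierstrassP (u + w)) U := fun u hu =>
    (second_order_shift L (fun h => hu (Or.inr h))).1
  have heq := hf.eqOn_of_preconnected_of_eventuallyEq hg hU h0U he
  -- near `u = -w` the right side has a pole and the left side does not
  have hreg : -w + z ∉ L.lattice := by rwa [neg_add_eq_sub]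
  have hc : ContinuousAt (fun u => L.weierstrassP (u + z)) (-w) :=
    (second_order_shift L hreg).1.continuousAt
  have hT : Tendsto (fun t => L.weierstrassP (t + (-w) + z) * t ^ 2) (𝓝[≠] (0 : ℂ)) (𝓝 0) := by
    have h : ContinuousAt (fun t : ℂ => L.weierstrassP (t + (-w) + z) * t ^ 2) 0 := by
      apply ContinuousAt.mul _ (by fun_prop)
      exact ContinuousAt.comp' (g := fun u => L.weierstrassP (u + z)) (by simpa using hc)
        (by fun_prop)
    simpa using h.tendsto.mono_left nhdsWithin_le_nhds
  have hT1 : Tendsto (jlatAux L) (𝓝[≠] (0 : ℂ)) (𝓝 1) := by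
    simpa [jlatAux_zero] using (analyticAt_jlatAux L).continuousAt.tendsto.mono_left
      nhdsWithin_le_nhds
  refine zero_ne_one (tendsto_nhds_unique hT (hT1.congr' ?_))
  have hin : ∀ᶠ t in 𝓝[≠] (0 : ℂ), t + (-w) + z ∉ L.lattice :=
    eventually_nhdsWithin_of_eventually_nhds
      (((continuous_add_const (-w + z)).tendsto' 0 _ (by ring)).eventually
        (L.isClosed_lattice.isOpen_compl.mem_nhds hreg) |>.mono fun t ht => by
          rwa [add_assoc])
  filter_upwards [self_mem_nhdsWithin, eventually_notMem_lattice L, hin] with t ht htL htz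
  have hmem : t + (-w) ∈ U := by
    simp only [U, Set.mem_compl_iff, Set.mem_union, Set.mem_preimage, SetLike.mem_coe, not_or]
    exact ⟨htz, by simpa using htL⟩
  have := heq hmem
  simp only [neg_add_cancel_right] at this
  rw [jlatAux_eq L ht, this]
  ring

/-- `℘'` and `℘''` have no common zero. -/
theorem deriv_ne_zero_or {z : ℂ} (hz : z ∉ L.lattice) :
    L.derivWeierstrassP z ≠ 0 ∨ 6 * L.weierstrassP z ^ 2 - L.g₂ / 2 ≠ 0 := by
  by_contra! h
  obtain ⟨h1, h2⟩ := h
  obtain ⟨a1, d1, o1⟩ := second_order_shift L (w := z) (x := 0) (by simpa using hz)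
  have he := eventuallyEq_of_second_order a1
    (analyticAt_const (v := L.weierstrassP z)) o1
    (Eventually.of_forall fun u => by simp only [deriv_const']; linear_combination -h2)
    (by simp) (by rw [d1]; simp [h1])
  have hU : IsPreconnected ((fun u => u + z) ⁻¹' (L.lattice : Set ℂ))ᶜ :=
    isPreconnected_compl_of_countable (countable_preimage_lattice L _ (add_left_injective z))
  have hf : AnalyticOnNhd ℂ (fun u => L.weierstrassP (u + z))
      ((fun u => u + z) ⁻¹' (L.lattice : Set ℂ))ᶜ := fun u hu =>
    (second_order_shift L hu).1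
  have heq := hf.eqOn_of_preconnected_of_eventuallyEq analyticOnNhd_const hU
    (by simpa using hz) he
  have hconst : ∀ v, v ∉ L.lattice → L.weierstrassP v = L.weierstrassP z := by
    intro v hv
    have := heq (show v - z ∈ ((fun u => u + z) ⁻¹' (L.lattice : Set ℂ))ᶜ by simpa using hv)
    simpa using this
  obtain ⟨v, hv, hv0⟩ :=
    ((eventually_notMem_lattice L).and (derivWeierstrassP_not_eventually_zero L)).exists
  refine hv0 ?_
  rw [← L.deriv_weierstrassP]
  have hev : L.weierstrassP =ᶠ[𝓝 v] fun _ => L.weierstrassP z := by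
    filter_upwards [L.isClosed_lattice.isOpen_compl.mem_nhds hv] with u hu using hconst u hu
  rw [hev.deriv_eq, deriv_const]

end FermatLib.Mazur.Uniformization
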