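import Fermat.Agent.Mazur.Uniformization.Addition

/-! The uniformisation `ℂ → E(ℂ)` is surjective. -/

set_option autoImplicit false

noncomputable section

open Filter Topology FermatLib.Modular

namespace FermatLib.Mazur.Uniformization

variable (L : PeriodPair)

theorem exists_weierstrassP_eq (x : ℂ) : ∃ z, z ∉ L.lattice ∧ L.weierstrassP z = x := by
  classical
  by_contra hcon
  push Not at hcon
  set G : ℂ → ℂ := fun z => if z ∈ L.lattice then 0 else (L.weierstrassP z - x)⁻¹ with hG
  have hper : ∀ z l, l ∈ L.lattice → G (z + l) = G z := fun z l hl => by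
    simp only [hG, add_mem_cancel_right hl, (L.periodic_weierstrassP ⟨l, hl⟩) z]
  have h0 : AnalyticAt ℂ G 0 := by
    have hA := analyticAt_jlatAux L
    have hq : AnalyticAt ℂ (fun z => z ^ 2 / (jlatAux L z - z ^ 2 * x)) 0 := by
      fun_prop (disch := simp [jlatAux_zero])
    refine hq.congr ?_
    have hev := eventually_notMem_lattice L
    rw [eventually_nhdsWithin_iff] at hev
    filter_upwards [hev] with z hz
    rcases eq_or_ne z 0 with rfl | hz0
    · simp [hG, zero_mem]
    · simp only [hG, if_neg (hz hz0), jlatAux_eq L hz0, ← mul_sub]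
      rw [div_mul_eq_div_div, div_self (pow_ne_zero 2 hz0), one_div]
  have hd : Differentiable ℂ G := fun z => by
    refine AnalyticAt.differentiableAt ?_
    by_cases hz : z ∈ L.lattice
    · have h' : AnalyticAt ℂ G (z + -z) := by rwa [add_neg_cancel]
      have h := AnalyticAt.fun_comp (g := G) (f := fun y => y + -z) h' (by fun_prop)
      exact h.congr (Eventually.of_forall fun y => hper y (-z) (neg_mem hz))
    · have h : AnalyticAt ℂ (fun w => (L.weierstrassP w - x)⁻¹) z :=
        ((L.analyticOnNhd_weierstrassP z hz).sub analyticAt_const).inv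
          (sub_ne_zero.mpr (hcon z hz))
      refine h.congr ?_
      filter_upwards [L.isClosed_lattice.isOpen_compl.mem_nhds hz] with y hy
      exact (if_neg hy).symm
  obtain ⟨z, hz⟩ := (eventually_notMem_lattice L).exists
  have hconst := hd.apply_eq_apply_of_bounded (IsZLattice.isCompact_range_of_periodic L.lattice _
    hd.continuous fun y w hw => hper y w hw).isBounded z 0
  simp only [hG, if_neg hz, zero_mem, ite_true, inv_eq_zero, sub_eq_zero] at hconst
  exact hcon z hz hconst

theorem toPoint_surjective : Function.Surjective (toPoint L) := by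
  intro P
  cases P with
  | zero => exact ⟨0, toPoint_of_mem L (zero_mem _)⟩
  | some x y h =>
    obtain ⟨z, hz, hzx⟩ := exists_weierstrassP_eq L x
    have e := L.derivWeierstrassP_sq z hz
    rw [hzx] at e
    have he := (WeierstrassCurve.Affine.equation_iff x y).mp h.1
    simp only [latticeCurve] at he
    have h2 : y ^ 2 = (L.derivWeierstrassP z / 2) ^ 2 := by linear_combination he - (1 / 4 : ℂ) * e
    rcases sq_eq_sq_iff_eq_or_eq_neg.mp h2 with hy | hy
    · refine ⟨z, ?_⟩
      rw [toPoint_of_notMem L hz]
      congr 1
      exact hy.symm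
    · refine ⟨-z, ?_⟩
      rw [toPoint_of_notMem L fun hm => hz (by simpa using neg_mem hm)]
      congr 1
      · rw [L.weierstrassP_neg, hzx]
      · rw [L.derivWeierstrassP_neg, hy]; ring

end FermatLib.Mazur.Uniformization
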