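import Fermat.Agent.Mazur.Uniformization.Ode

/-! The chord construction satisfies the differential equation of `℘`. -/

set_option autoImplicit false

noncomputable section

open Filter Topology FermatLib.Modular

namespace FermatLib.Mazur.Uniformization

variable (L : PeriodPair) (w : ℂ)

/-- Slope of the chord through the points of parameters `t` and `w`. -/
def chordSlope (t : ℂ) : ℂ :=
  (L.derivWeierstrassP t / 2 - L.derivWeierstrassP w / 2) /
    (L.weierstrassP t - L.weierstrassP w)

/-- Abscissa of the third intersection. -/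
def chordX (t : ℂ) : ℂ := chordSlope L w t ^ 2 - L.weierstrassP t - L.weierstrassP w

/-- Ordinate of the sum. -/
def chordY (t : ℂ) : ℂ :=
  -(chordSlope L w t * (chordX L w t - L.weierstrassP t) + L.derivWeierstrassP t / 2)

/-- `chordX` extended analytically across `t = 0`. -/
def chordAux (t : ℂ) : ℂ :=
  (8 * jlatAux L t ^ 2 * L.weierstrassP w
    + t * (-2 * jlatAux' L t * L.derivWeierstrassP w
      + t * (-L.g₂ * jlatAux L t - L.g₃ * t ^ 2 + t ^ 2 * L.derivWeierstrassP w ^ 2
        - 4 * jlatAux L t * L.weierstrassP w ^ 2))) /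
    (4 * (jlatAux L t - t ^ 2 * L.weierstrassP w) ^ 2) - L.weierstrassP w

variable {L w}

theorem hasDerivAt_chordX {t : ℂ} (hw : w ∉ L.lattice) (ht : t ∉ L.lattice)
    (hne : L.weierstrassP t ≠ L.weierstrassP w) :
    HasDerivAt (chordX L w) (2 * chordY L w t) t ∧
      HasDerivAt (chordY L w) (3 * chordX L w t ^ 2 - L.g₂ / 4) t := by
  have hp := hasDerivAt_weierstrassP L ht
  have hp' := hasDerivAt_derivWeierstrassP L ht
  have hden : L.weierstrassP t - L.weierstrassP w ≠ 0 := sub_ne_zero.mpr hne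
  have hsl : HasDerivAt (chordSlope L w)
      (L.weierstrassP t - chordX L w t) t := by
    have h := ((hp'.div_const 2).sub_const (L.derivWeierstrassP w / 2)).fun_div
      (hp.sub_const (L.weierstrassP w)) hden
    refine h.congr_deriv ?_
    simp only [chordX, chordSlope]
    have e1 := L.derivWeierstrassP_sq t ht
    have e2 := L.derivWeierstrassP_sq w hw
    field_simp
    linear_combination (-1) * e1 + e2
  have hX : HasDerivAt (chordX L w) (2 * chordY L w t) t := by
    refine (((hsl.fun_pow 2).fun_sub hp).sub_const (L.weierstrassP w)).congr_deriv ?_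
    simp only [chordY]
    push_cast
    ring
  refine ⟨hX, ((hsl.fun_mul (hX.fun_sub hp)).fun_add (hp'.div_const 2)).fun_neg.congr_deriv ?_⟩
  have e1 := L.derivWeierstrassP_sq t ht
  have e2 := L.derivWeierstrassP_sq w hw
  simp only [chordY, chordX, chordSlope]
  field_simp
  grind

variable (L w)

theorem analyticAt_chordAux : AnalyticAt ℂ (chordAux L w) 0 := by
  have := analyticAt_jlatAux L
  have := analyticAt_jlatAux' L
  unfold chordAux
  fun_prop (disch := simp [jlatAux_zero])

theorem chordAux_zero : chordAux L w 0 = L.weierstrassP w := by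
  simp [chordAux, jlatAux_zero]
  ring

theorem hasDerivAt_jlatAux_zero : HasDerivAt (jlatAux L) 0 0 := by
  have h := (((hasDerivAt_pow 2 (0 : ℂ)).fun_mul
    (L.analyticAt_weierstrassPExcept 0).differentiableAt.hasDerivAt).add_const 1)
  refine h.congr_deriv ?_
  simp

theorem hasDerivAt_chordAux_zero :
    HasDerivAt (chordAux L w) (L.derivWeierstrassP w) 0 := by
  have hA := hasDerivAt_jlatAux_zero L
  have hB := (analyticAt_jlatAux' L).differentiableAt.hasDerivAt
  set c := L.weierstrassP w
  set d := L.derivWeierstrassP w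
  have hR : HasDerivAt (fun t => -L.g₂ * jlatAux L t - L.g₃ * t ^ 2 + t ^ 2 * d ^ 2
      - 4 * jlatAux L t * c ^ 2) 0 0 := by
    refine ((((hA.const_mul (-L.g₂)).fun_sub ((hasDerivAt_pow 2 (0 : ℂ)).const_mul L.g₃)).fun_add
      ((hasDerivAt_pow 2 (0 : ℂ)).mul_const (d ^ 2))).fun_sub
      ((hA.const_mul 4).mul_const (c ^ 2))).congr_deriv ?_
    simp
  have hnum : HasDerivAt (fun t => 8 * jlatAux L t ^ 2 * c + t * (-2 * jlatAux' L t * d
      + t * (-L.g₂ * jlatAux L t - L.g₃ * t ^ 2 + t ^ 2 * d ^ 2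
        - 4 * jlatAux L t * c ^ 2))) (4 * d) 0 := by
    refine ((((hA.fun_pow 2).const_mul 8).mul_const c).fun_add ((hasDerivAt_id' 0).fun_mul
      (((hB.const_mul (-2 : ℂ)).mul_const d).fun_add ((hasDerivAt_id' 0).fun_mul hR)))).congr_deriv ?_
    norm_num [jlatAux'_zero]
  have hden : HasDerivAt (fun t => 4 * (jlatAux L t - t ^ 2 * c) ^ 2) 0 0 := by
    refine (((hA.fun_sub ((hasDerivAt_pow 2 (0 : ℂ)).mul_const c)).fun_pow 2).const_mul 4).congr_deriv
      ?_
    simp
  refine ((hnum.fun_div hden (by simp [jlatAux_zero])).sub_const c).congr_deriv ?_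
  simp [jlatAux_zero]
  ring

/-- Near `0`: the auxiliary function is the chord construction, and the chord is not vertical. -/
theorem eventually_chordAux_eq :
    ∀ᶠ t in 𝓝[≠] (0 : ℂ), t ∉ L.lattice ∧ L.weierstrassP t ≠ L.weierstrassP w ∧
      chordAux L w t = chordX L w t := by
  have hq : ∀ᶠ t in 𝓝 (0 : ℂ), jlatAux L t - t ^ 2 * L.weierstrassP w ≠ 0 := by
    have := analyticAt_jlatAux L
    have h : ContinuousAt (fun t => jlatAux L t - t ^ 2 * L.weierstrassP w) 0 :=
      AnalyticAt.continuousAt (by fun_prop)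
    exact h.eventually_ne (by simp [jlatAux_zero])
  filter_upwards [self_mem_nhdsWithin, eventually_notMem_lattice L,
    mem_nhdsWithin_of_mem_nhds hq, jlatAux_relation L] with t (ht : t ≠ 0) htL htq hrel
  have eA := jlatAux_eq L ht
  have eB := jlatAux'_eq L ht htL
  have hne : L.weierstrassP t ≠ L.weierstrassP w := fun e => htq (by rw [eA, e]; ring)
  refine ⟨htL, hne, ?_⟩
  have hden : L.weierstrassP t - L.weierstrassP w ≠ 0 := sub_ne_zero.mpr hne
  have e1 := L.derivWeierstrassP_sq t htL
  simp only [chordAux, chordX, chordSlope, eA, eB]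
  rw [show t ^ 2 * L.weierstrassP t - t ^ 2 * L.weierstrassP w =
    t ^ 2 * (L.weierstrassP t - L.weierstrassP w) by ring]
  field_simp
  grind

/-- The auxiliary function is `t ↦ ℘ (t + w)`. -/
theorem chordAux_eventuallyEq (hw : w ∉ L.lattice) :
    chordAux L w =ᶠ[𝓝 0] fun t => L.weierstrassP (t + w) := by
  have ha := analyticAt_chordAux L w
  have hev := (eventually_chordAux_eq L w).filter_mono le_rfl
  rw [eventually_nhdsWithin_iff] at hev
  have hode : ∀ᶠ t in 𝓝[≠] (0 : ℂ),
      deriv (deriv (chordAux L w)) t - (6 * chordAux L w t ^ 2 + -L.g₂ / 2) = 0 := by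
    rw [eventually_nhdsWithin_iff]
    filter_upwards [hev.eventually_nhds] with t ht ht0
    have hnhds : ∀ᶠ s in 𝓝 t, s ∉ L.lattice ∧ L.weierstrassP s ≠ L.weierstrassP w ∧
        chordAux L w s = chordX L w s := by
      filter_upwards [ht, isOpen_ne.mem_nhds ht0] with s hs hs0 using hs hs0
    have hd : deriv (chordAux L w) =ᶠ[𝓝 t] fun s => 2 * chordY L w s := by
      filter_upwards [hnhds.eventually_nhds] with s hs
      have he : chordAux L w =ᶠ[𝓝 s] chordX L w := hs.mono fun x hx => hx.2.2
      rw [he.deriv_eq, (hasDerivAt_chordX hw hs.self_of_nhds.1 hs.self_of_nhds.2.1).1.deriv]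
    obtain ⟨h1, h2, h3⟩ := hnhds.self_of_nhds
    rw [hd.deriv_eq, ((hasDerivAt_chordX hw h1 h2).2.const_mul 2).deriv, h3]
    ring
  have hD : ContinuousAt (fun t => deriv (deriv (chordAux L w)) t -
      (6 * chordAux L w t ^ 2 + -L.g₂ / 2)) 0 := by
    have := ha.deriv.deriv
    exact AnalyticAt.continuousAt (by fun_prop)
  have hD0 : deriv (deriv (chordAux L w)) 0 - (6 * chordAux L w 0 ^ 2 + -L.g₂ / 2) = 0 :=
    tendsto_nhds_unique (hD.tendsto.mono_left nhdsWithin_le_nhds)
      (tendsto_const_nhds.congr' (EventuallyEq.symm hode))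
  have hode' : ∀ᶠ t in 𝓝 (0 : ℂ),
      deriv (deriv (chordAux L w)) t = 6 * chordAux L w t ^ 2 + -L.g₂ / 2 := by
    rw [eventually_nhdsWithin_iff] at hode
    filter_upwards [hode] with t ht
    by_cases h0 : t = 0
    · subst h0; exact sub_eq_zero.mp hD0
    · exact sub_eq_zero.mp (ht h0)
  obtain ⟨a2, d2, o2⟩ := second_order_shift L (w := w) (x := 0) (by simpa using hw)
  exact eventuallyEq_of_second_order ha a2 hode' o2 (by simp [chordAux_zero])
    (by rw [(hasDerivAt_chordAux_zero L w).deriv, d2, zero_add])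

/-- Near `0` the chord construction gives `(℘ (t + w), ℘' (t + w) / 2)`. -/
theorem eventually_chord_eq (hw : w ∉ L.lattice) :
    ∀ᶠ t in 𝓝[≠] (0 : ℂ), t ∉ L.lattice ∧ L.weierstrassP t ≠ L.weierstrassP w ∧
      L.weierstrassP (t + w) = chordX L w t ∧
      L.derivWeierstrassP (t + w) = 2 * chordY L w t := by
  have hev := eventually_chordAux_eq L w
  rw [eventually_nhdsWithin_iff] at hev ⊢
  filter_upwards [hev.eventually_nhds, (chordAux_eventuallyEq L w hw).eventually_nhds] with t ht he
    ht0
  obtain ⟨h1, h2, h3⟩ := ht.self_of_nhds ht0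
  have hX : (fun s => L.weierstrassP (s + w)) =ᶠ[𝓝 t] chordX L w := by
    filter_upwards [ht, he, isOpen_ne.mem_nhds ht0] with s hs hs' hs0
    rw [← hs', (hs hs0).2.2]
  refine ⟨h1, h2, hX.eq_of_nhds, ?_⟩
  have := hX.deriv_eq
  rwa [deriv_comp_add_const, L.deriv_weierstrassP, (hasDerivAt_chordX hw h1 h2).1.deriv] at this

end FermatLib.Mazur.Uniformization
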