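import Fermat.Agent.Mazur.Uniformization.Curve
import Fermat.Agent.Mazur.Uniformization.ChordSum

/-! The addition theorem: `z ↦ (℘ z, ℘' z / 2)` is a homomorphism. -/

set_option autoImplicit false

noncomputable section

open Filter Topology

namespace FermatLib.Mazur.Uniformization

variable (L : PeriodPair)

/-- The two relations expressing that `z + w` is the chord sum, without denominators. -/
theorem chord_relations {z w : ℂ} (hz : z ∉ L.lattice) (hw : w ∉ L.lattice)
    (hzw : z + w ∉ L.lattice) :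
    (L.weierstrassP (z + w) + L.weierstrassP z + L.weierstrassP w) *
        (L.weierstrassP z - L.weierstrassP w) ^ 2 -
        ((L.derivWeierstrassP z - L.derivWeierstrassP w) / 2) ^ 2 = 0 ∧
      (L.derivWeierstrassP (z + w) + L.derivWeierstrassP z) *
          (L.weierstrassP z - L.weierstrassP w) +
        (L.derivWeierstrassP z - L.derivWeierstrassP w) *
          (L.weierstrassP (z + w) - L.weierstrassP z) = 0 := by
  set U : Set ℂ := ((L.lattice : Set ℂ) ∪ (fun u => u + w) ⁻¹' (L.lattice : Set ℂ))ᶜ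
  have hU : IsPreconnected U := isPreconnected_compl_of_countable
    ((countable_lattice L).union (countable_preimage_lattice L _ (add_left_injective w)))
  set H₁ : ℂ → ℂ := fun t => (L.weierstrassP (t + w) + L.weierstrassP t + L.weierstrassP w) *
      (L.weierstrassP t - L.weierstrassP w) ^ 2 -
      ((L.derivWeierstrassP t - L.derivWeierstrassP w) / 2) ^ 2
  set H₂ : ℂ → ℂ := fun t => (L.derivWeierstrassP (t + w) + L.derivWeierstrassP t) *
        (L.weierstrassP t - L.weierstrassP w) +
      (L.derivWeierstrassP t - L.derivWeierstrassP w) *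
        (L.weierstrassP (t + w) - L.weierstrassP t)
  have han : ∀ u ∈ U, AnalyticAt ℂ L.weierstrassP u ∧ AnalyticAt ℂ L.derivWeierstrassP u ∧
      AnalyticAt ℂ (fun t => L.weierstrassP (t + w)) u ∧
      AnalyticAt ℂ (fun t => L.derivWeierstrassP (t + w)) u := fun u hu => by
    refine ⟨L.analyticOnNhd_weierstrassP u fun h => hu (Or.inl h),
      L.analyticOnNhd_derivWeierstrassP u fun h => hu (Or.inl h),
      (second_order_shift L fun h => hu (Or.inr h)).1, ?_⟩
    exact AnalyticAt.fun_comp (g := L.derivWeierstrassP) (f := fun t => t + w)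
      (L.analyticOnNhd_derivWeierstrassP (u + w) fun h => hu (Or.inr h)) (by fun_prop)
  have h₁ : AnalyticOnNhd ℂ H₁ U := fun u hu => by
    obtain ⟨a, b, c, d⟩ := han u hu
    show AnalyticAt ℂ (fun t => _) u
    fun_prop
  have h₂ : AnalyticOnNhd ℂ H₂ U := fun u hu => by
    obtain ⟨a, b, c, d⟩ := han u hu
    show AnalyticAt ℂ (fun t => _) u
    fun_prop
  have hev := eventually_chord_eq L w hw
  have hwev : ∀ᶠ t in 𝓝[≠] (0 : ℂ), t + w ∉ L.lattice :=
    eventually_nhdsWithin_of_eventually_nhds (((continuous_add_const w).tendsto' 0 w (by ring)).eventually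
      (L.isClosed_lattice.isOpen_compl.mem_nhds hw))
  rw [eventually_nhdsWithin_iff] at hev hwev
  obtain ⟨t₀, ⟨⟨e, hU₀⟩, ht₀⟩⟩ : ∃ t₀ : ℂ,
      ((∀ᶠ t in 𝓝 t₀, t ∉ L.lattice ∧ L.weierstrassP t ≠ L.weierstrassP w ∧
        L.weierstrassP (t + w) = chordX L w t ∧
        L.derivWeierstrassP (t + w) = 2 * chordY L w t) ∧ t₀ + w ∉ L.lattice) ∧ t₀ ≠ 0 := by
    have h : ∀ᶠ t in 𝓝[≠] (0 : ℂ), ((∀ᶠ s in 𝓝 t, s ∉ L.lattice ∧
        L.weierstrassP s ≠ L.weierstrassP w ∧ L.weierstrassP (s + w) = chordX L w s ∧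
        L.derivWeierstrassP (s + w) = 2 * chordY L w s) ∧ t + w ∉ L.lattice) ∧ t ≠ 0 := by
      rw [eventually_nhdsWithin_iff]
      filter_upwards [hev.eventually_nhds, hwev] with t ht htw ht0
      refine ⟨⟨?_, htw ht0⟩, ht0⟩
      filter_upwards [ht, isOpen_ne.mem_nhds ht0] with s hs hs0 using hs hs0
    exact h.exists
  have ht₀U : t₀ ∈ U := by
    simp only [U, Set.mem_compl_iff, Set.mem_union, Set.mem_preimage, SetLike.mem_coe, not_or]
    exact ⟨e.self_of_nhds.1, hU₀⟩
  have hzU : z ∈ U := by
    simp only [U, Set.mem_compl_iff, Set.mem_union, Set.mem_preimage, SetLike.mem_coe, not_or]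
    exact ⟨hz, hzw⟩
  have k₁ : H₁ =ᶠ[𝓝 t₀] fun _ => 0 := by
    filter_upwards [e] with t ht
    obtain ⟨-, hne, hX, -⟩ := ht
    have : L.weierstrassP t - L.weierstrassP w ≠ 0 := sub_ne_zero.mpr hne
    simp only [H₁, hX, chordX, chordSlope]
    field_simp
    ring
  have k₂ : H₂ =ᶠ[𝓝 t₀] fun _ => 0 := by
    filter_upwards [e] with t ht
    obtain ⟨-, hne, hX, hY⟩ := ht
    have : L.weierstrassP t - L.weierstrassP w ≠ 0 := sub_ne_zero.mpr hne
    simp only [H₂, hX, hY, chordY, chordX, chordSlope]
    field_simp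
    ring
  exact ⟨h₁.eqOn_of_preconnected_of_eventuallyEq analyticOnNhd_const hU ht₀U k₁ hzU,
    h₂.eqOn_of_preconnected_of_eventuallyEq analyticOnNhd_const hU ht₀U k₂ hzU⟩

/-- `℘ z = ℘ w` only for `z ≡ ± w`. -/
theorem sub_mem_of_weierstrassP_eq {z w : ℂ} (hz : z ∉ L.lattice) (hw : w ∉ L.lattice)
    (hzw : z + w ∉ L.lattice) (h : L.weierstrassP z = L.weierstrassP w) : z - w ∈ L.lattice := by
  refine sub_mem_lattice_of_eq L hz hw h ?_
  have h1 := (chord_relations L hz hw hzw).1
  rw [h, sub_self] at h1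
  simp only [ne_eq, OfNat.ofNat_ne_zero, not_false_eq_true, zero_pow, mul_zero, zero_sub,
    neg_eq_zero, pow_eq_zero_iff, div_eq_zero_iff, or_false, sub_eq_zero] at h1
  exact h1

theorem toPoint_congr {z z' : ℂ} (h : z - z' ∈ L.lattice) : toPoint L z = toPoint L z' := by
  have e : z = z' + ((⟨_, h⟩ : L.lattice) : ℂ) := by simp
  by_cases hz : z' ∈ L.lattice
  · rw [toPoint_of_mem L hz, toPoint_of_mem L (by rw [e]; exact add_mem hz h)]
  · have hz' : z ∉ L.lattice := fun hm => hz (by simpa using sub_mem hm h)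
    have e1 : L.weierstrassP z = L.weierstrassP z' := by rw [e, L.weierstrassP_add_coe]
    have e2 : L.derivWeierstrassP z = L.derivWeierstrassP z' := by
      rw [e, L.derivWeierstrassP_add_coe]
    rw [toPoint_of_notMem L hz, toPoint_of_notMem L hz']
    simp only [e1, e2]

theorem toPoint_neg (z : ℂ) : toPoint L (-z) = -toPoint L z := by
  by_cases hz : z ∈ L.lattice
  · rw [toPoint_of_mem L hz, toPoint_of_mem L (neg_mem hz), neg_zero]
  · rw [toPoint_of_notMem L hz, toPoint_of_notMem L (fun h => hz (by simpa using neg_mem h)),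
      WeierstrassCurve.Affine.Point.neg_some]
    simp only [WeierstrassCurve.Affine.Point.some.injEq, L.weierstrassP_neg,
      L.derivWeierstrassP_neg, WeierstrassCurve.Affine.negY, latticeCurve, true_and]
    ring

open Classical in
theorem toPoint_add_of_ne {z w : ℂ} (hz : z ∉ L.lattice) (hw : w ∉ L.lattice)
    (hzw : z + w ∉ L.lattice) (hne : L.weierstrassP z ≠ L.weierstrassP w) :
    toPoint L (z + w) = toPoint L z + toPoint L w := by
  obtain ⟨h1, h2⟩ := chord_relations L hz hw hzw
  rw [toPoint_of_notMem L hz, toPoint_of_notMem L hw, toPoint_of_notMem L hzw,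
    WeierstrassCurve.Affine.Point.add_of_X_ne hne]
  have hd : L.weierstrassP z - L.weierstrassP w ≠ 0 := sub_ne_zero.mpr hne
  have hX : L.weierstrassP (z + w) =
      ((L.derivWeierstrassP z / 2 - L.derivWeierstrassP w / 2) /
        (L.weierstrassP z - L.weierstrassP w)) ^ 2 - L.weierstrassP z - L.weierstrassP w := by
    field_simp
    linear_combination 4 * h1
  simp only [WeierstrassCurve.Affine.addX,
    WeierstrassCurve.Affine.addY, WeierstrassCurve.Affine.negAddY, WeierstrassCurve.Affine.negY,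
    WeierstrassCurve.Affine.slope_of_X_ne hne, latticeCurve, zero_mul, add_zero, sub_zero]
  congr 1
  rw [← hX]
  field_simp
  linear_combination h2

theorem toPoint_add (z w : ℂ) : toPoint L (z + w) = toPoint L z + toPoint L w := by
  by_cases hz : z ∈ L.lattice
  · rw [toPoint_of_mem L hz, zero_add]
    exact toPoint_congr L (by simpa using hz)
  by_cases hw : w ∈ L.lattice
  · rw [toPoint_of_mem L hw, add_zero]
    exact toPoint_congr L (by simpa using hw)
  by_cases hzw : z + w ∈ L.lattice
  · rw [toPoint_of_mem L hzw, toPoint_congr L (z := z) (z' := -w) (by simpa using hzw),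
      toPoint_neg, neg_add_cancel]
  by_cases hne : L.weierstrassP z ≠ L.weierstrassP w
  · exact toPoint_add_of_ne L hz hw hzw hne
  -- `z ≡ w`: split `2 w = (w + t) + (w - t)` for an auxiliary `t`
  have hzw' := sub_mem_of_weierstrassP_eq L hz hw hzw (not_not.mp hne)
  rw [toPoint_congr L (z := z + w) (z' := w + w) (by simpa using hzw'), toPoint_congr L hzw']
  have h2w : w + w ∉ L.lattice := fun h => hzw (by
    have := add_mem hzw' h
    rwa [show z - w + (w + w) = z + w by ring] at this)
  obtain ⟨t, ht⟩ : ∃ t, t ∈ (((L.lattice : Set ℂ) ∪ (fun u => w + u) ⁻¹' L.lattice) ∪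
      (fun u => w - u) ⁻¹' L.lattice ∪ (fun u => 2 * u) ⁻¹' L.lattice)ᶜ := by
    have hc : Set.Countable (((L.lattice : Set ℂ) ∪ (fun u => w + u) ⁻¹' L.lattice) ∪
        (fun u => w - u) ⁻¹' L.lattice ∪ (fun u => 2 * u) ⁻¹' L.lattice) :=
      (((countable_lattice L).union (countable_preimage_lattice L _ (add_right_injective w))).union
        (countable_preimage_lattice L _ sub_right_injective)).union
        (countable_preimage_lattice L _ (mul_right_injective₀ two_ne_zero))
    exact (hc.dense_compl ℝ).nonempty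
  simp only [Set.mem_compl_iff, Set.mem_union, Set.mem_preimage, SetLike.mem_coe, not_or] at ht
  obtain ⟨⟨⟨ht, hp⟩, hm⟩, h2t⟩ := ht
  have hnt : -t ∉ L.lattice := fun h => ht (by simpa using neg_mem h)
  have e1 : toPoint L (w + t) = toPoint L w + toPoint L t := by
    refine toPoint_add_of_ne L hw ht hp fun e => hm ?_
    exact sub_mem_of_weierstrassP_eq L hw ht hp e
  have e2 : toPoint L (w - t) = toPoint L w - toPoint L t := by
    rw [sub_eq_add_neg w t, sub_eq_add_neg, ← toPoint_neg]
    refine toPoint_add_of_ne L hw hnt (by rwa [← sub_eq_add_neg]) fun e => hp ?_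
    have := sub_mem_of_weierstrassP_eq L hw hnt (by rwa [← sub_eq_add_neg]) e
    rwa [sub_neg_eq_add] at this
  have e3 : toPoint L (w + t + (w - t)) = toPoint L (w + t) + toPoint L (w - t) := by
    have hs : w + t + (w - t) ∉ L.lattice := by
      rwa [show w + t + (w - t) = w + w by ring]
    refine toPoint_add_of_ne L hp hm hs fun e => h2t ?_
    have := sub_mem_of_weierstrassP_eq L hp hm hs e
    rwa [show w + t - (w - t) = 2 * t by ring] at this
  rw [show w + w = w + t + (w - t) by ring, e3, e1, e2]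
  abel

/-- The uniformisation `ℂ → E(ℂ)`. -/
def uniformization : ℂ →+ (latticeCurve L).toAffine.Point :=
  AddMonoidHom.mk' (toPoint L) (toPoint_add L)

theorem uniformization_apply (z : ℂ) : uniformization L z = toPoint L z := rfl

theorem mem_ker_uniformization {z : ℂ} : z ∈ (uniformization L).ker ↔ z ∈ L.lattice :=
  toPoint_eq_zero_iff L

end FermatLib.Mazur.Uniformization
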