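import Fermat.Agent.Mazur.Uniformization.Ode
import Mathlib.AlgebraicGeometry.EllipticCurve.Affine.Point

/-! The cubic attached to a lattice and the map `z ↦ (℘ z, ℘' z / 2)`. -/

set_option autoImplicit false

noncomputable section

namespace FermatLib.Mazur.Uniformization

variable (L : PeriodPair)

/-- `y² = x³ - (g₂/4) x - g₃/4`. -/
def latticeCurve : WeierstrassCurve ℂ where
  a₁ := 0
  a₂ := 0
  a₃ := 0
  a₄ := -L.g₂ / 4
  a₆ := -L.g₃ / 4

theorem latticeCurve_nonsingular {z : ℂ} (hz : z ∉ L.lattice) :
    (latticeCurve L).toAffine.Nonsingular (L.weierstrassP z) (L.derivWeierstrassP z / 2) := by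
  rw [WeierstrassCurve.Affine.nonsingular_iff]
  refine ⟨?_, ?_⟩
  · rw [WeierstrassCurve.Affine.equation_iff]
    simp only [latticeCurve]
    linear_combination (1 / 4 : ℂ) * L.derivWeierstrassP_sq z hz
  · simp only [latticeCurve]
    rcases deriv_ne_zero_or L hz with h | h
    · right
      intro e
      exact h (by linear_combination e)
    · left
      intro e
      exact h (by linear_combination -2 * e)

open Classical in
/-- The point of `latticeCurve L` attached to `z`. -/
def toPoint (z : ℂ) : (latticeCurve L).toAffine.Point :=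
  if h : z ∈ L.lattice then 0 else .some _ _ (latticeCurve_nonsingular L h)

theorem toPoint_of_mem {z : ℂ} (h : z ∈ L.lattice) : toPoint L z = 0 := dif_pos h

theorem toPoint_of_notMem {z : ℂ} (h : z ∉ L.lattice) :
    toPoint L z = .some _ _ (latticeCurve_nonsingular L h) := dif_neg h

theorem toPoint_eq_zero_iff {z : ℂ} : toPoint L z = 0 ↔ z ∈ L.lattice := by
  refine ⟨fun h => ?_, toPoint_of_mem L⟩
  by_contra hz
  rw [toPoint_of_notMem L hz] at h
  exact WeierstrassCurve.Affine.Point.some_ne_zero _ h

end FermatLib.Mazur.Uniformization
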